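import Mathlib
import Fermat.Agent.MUL.S48.W.P.Defs
import Fermat.Agent.MUL.Orig.S48.Eis1.Statement
import Fermat.Agent.MUL.S48.W.ProductDefs
import Fermat.Agent.MUL.S48.W.P.Product
import Fermat.Agent.MUL.Orig.S48.W.G.Red.Igusa.Defs

section MergeWrap_S48_W_P_Teich -- from S48/W/P/Teich.lean

set_option autoImplicit false
set_option linter.style.haveILetI false

noncomputable section

namespace Fermat.Agent.S48W

open Polynomial

/-- `φ` is injective on the `n`-th roots of unity of `ℤ̄` if `n ≠ 0` in `k`. -/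
theorem teich_inj_on_roots {k : Type} [Field k] (φ : integralClosure ℤ ℂ →+* k) {n : ℕ}
    (hn : (n : k) ≠ 0) {z : integralClosure ℤ ℂ} (hz : IsPrimitiveRoot z n)
    {x y : integralClosure ℤ ℂ} (hx : x ^ n = 1) (hy : y ^ n = 1) (hxy : φ x = φ y) : x = y := by
  classical
  have hpos : 0 < n := Nat.pos_of_ne_zero (by rintro rfl; simp at hn)
  have hprod := X_pow_sub_one_eq_prod hpos hz
  have hmap : (X ^ n - 1 : k[X]) =
      (((nthRootsFinset n (1 : integralClosure ℤ ℂ)).val.map φ).map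
        (fun a => X - C a)).prod := by
    have h := congrArg (Polynomial.map φ) hprod
    rw [Polynomial.map_sub, Polynomial.map_pow, Polynomial.map_X, Polynomial.map_one,
      Polynomial.map_prod] at h
    rw [h, Multiset.map_map, Finset.prod_eq_multiset_prod]
    congr 1
    refine Multiset.map_congr rfl fun a _ => ?_
    simp
  have hsep : (X ^ n - 1 : k[X]).Separable := by
    have h := separable_X_pow_sub_C (1 : k) hn one_ne_zero
    simpa using h
  have hnodup := nodup_roots hsep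
  rw [hmap, roots_multiset_prod_X_sub_C] at hnodup
  exact Multiset.inj_on_of_nodup_map hnodup x
    ((mem_nthRootsFinset hpos 1).2 hx) y ((mem_nthRootsFinset hpos 1).2 hy) hxy

/-- A root of unity `ζ ∈ ℤ̄ˣ` of order dividing `n` whose image in `k` is a PRIMITIVE `n`-th root
of unity (`n ≠ 0` in `k`). -/
theorem teich_exists_root {k : Type} [Field k] (φ : integralClosure ℤ ℂ →+* k) {n : ℕ}
    (hn : (n : k) ≠ 0) :
    ∃ ζ : (integralClosure ℤ ℂ)ˣ, ζ ^ n = 1 ∧
      IsPrimitiveRoot (φ (ζ : integralClosure ℤ ℂ)) n := by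
  have hn0 : n ≠ 0 := by rintro rfl; simp at hn
  have hpos : 0 < n := Nat.pos_of_ne_zero hn0
  have hprim := Complex.isPrimitiveRoot_exp n hn0
  set z : integralClosure ℤ ℂ := ⟨_, hprim.isIntegral hpos⟩ with hzdef
  have hz : IsPrimitiveRoot z n := by
    refine IsPrimitiveRoot.of_map_of_injective (f := (integralClosure ℤ ℂ).val) ?_
      Subtype.val_injective
    exact hprim
  have hzn : z ^ n = 1 := hz.pow_eq_one
  have hzu : IsUnit z := by
    refine IsUnit.of_mul_eq_one (z ^ (n - 1)) ?_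
    rw [← pow_succ', Nat.sub_add_cancel hpos, hzn]
  obtain ⟨ζ, hζ⟩ := hzu
  refine ⟨ζ, ?_, ?_⟩
  · apply Units.ext
    rw [Units.val_pow_eq_pow_val, hζ, hzn, Units.val_one]
  · rw [hζ]
    refine IsPrimitiveRoot.mk_of_lt _ hpos (by rw [← map_pow, hzn, map_one]) fun m hm0 hmn h1 => ?_
    rw [← map_pow, ← map_one φ] at h1
    have h2 : z ^ m = 1 := teich_inj_on_roots φ hn hz
      (by rw [← pow_mul, Nat.mul_comm, pow_mul, hzn, one_pow]) (one_pow n) h1
    exact hz.pow_ne_one_of_pos_of_lt hm0.ne' hmn h2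

/-- **(P1) the Teichmüller character**. -/
theorem teichStatement : TeichStatement := by
  intro ℓ hℓ k _ _ φ
  haveI : Fact ℓ.Prime := ⟨hℓ⟩
  have hℓ1 : 0 < ℓ - 1 := Nat.sub_pos_of_lt hℓ.one_lt
  have hn : ((ℓ - 1 : ℕ) : k) ≠ 0 := by
    intro h
    have h1 := (CharP.cast_eq_zero_iff k ℓ (ℓ - 1)).1 h
    exact absurd (Nat.le_of_dvd hℓ1 h1) (by omega)
  obtain ⟨ζ, hζ1, hζ⟩ := teich_exists_root φ hn
  -- the reduction map `(ℤ/ℓ)ˣ → k`
  have hcast : ∀ d : (ZMod ℓ)ˣ, (((d : ZMod ℓ).val : ℕ) : k) =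
      ZMod.castHom (dvd_refl ℓ) k (d : ZMod ℓ) := by
    intro d
    rw [ZMod.castHom_apply, ZMod.natCast_val]
  obtain ⟨g, hg⟩ := IsCyclic.exists_generator (α := (ZMod ℓ)ˣ)
  have hgord : orderOf g = ℓ - 1 := by
    rw [orderOf_eq_card_of_forall_mem_zpowers hg, Nat.card_eq_fintype_card, ZMod.card_units]
  have hgx : (ZMod.castHom (dvd_refl ℓ) k (g : ZMod ℓ)) ^ (ℓ - 1) = 1 := by
    rw [← map_pow, ← Units.val_pow_eq_pow_val, ZMod.units_pow_card_sub_one_eq_one, Units.val_one,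
      map_one]
  haveI : NeZero (ℓ - 1) := ⟨hℓ1.ne'⟩
  obtain ⟨i, -, hi⟩ := hζ.eq_pow_of_pow_eq_one hgx
  have hord : orderOf (ζ ^ i) ∣ orderOf g := by
    rw [hgord]
    refine orderOf_dvd_of_pow_eq_one ?_
    rw [← pow_mul, Nat.mul_comm, pow_mul, hζ1, one_pow]
  refine ⟨monoidHomOfForallMemZpowers hg hord, fun d => ?_⟩
  rw [hcast]
  obtain ⟨m, rfl⟩ : ∃ m : ℕ, g ^ m = d := by
    have h1 : d ∈ Submonoid.powers g := mem_powers_iff_mem_zpowers.2 (hg d)
    exact h1
  rw [map_pow, monoidHomOfForallMemZpowers_apply_gen, Units.val_pow_eq_pow_val,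
    Units.val_pow_eq_pow_val, Units.val_pow_eq_pow_val, map_pow, map_pow, map_pow, hi]

end Fermat.Agent.S48W
end
end MergeWrap_S48_W_P_Teich

section MergeWrap_S48_W_P_Scale -- from S48/W/P/Scale.lean

set_option autoImplicit false

namespace Fermat.Agent.S48W

open NumberField

/-- In a valuation ring, a finite nonempty family has a member which divides all the others. -/
theorem scale_exists_min_dvd {A : Type*} [CommRing A] [IsDomain A] [ValuationRing A]
    {ι : Type*} (F : Finset ι) (hF : F.Nonempty) (f : ι → A) :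
    ∃ i ∈ F, ∀ j ∈ F, f i ∣ f j := by
  classical
  induction hF using Finset.Nonempty.cons_induction with
  | singleton a => exact ⟨a, Finset.mem_singleton_self a, fun j hj => by
      rw [Finset.mem_singleton.mp hj]⟩
  | cons a s ha hs ih =>
    obtain ⟨i, hi, hdiv⟩ := ih
    rcases ValuationRing.dvd_total (f a) (f i) with h | h
    · refine ⟨a, Finset.mem_cons_self a s, fun j hj => ?_⟩
      rcases Finset.mem_cons.mp hj with rfl | hj
      · exact dvd_rfl
      · exact h.trans (hdiv j hj)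
    · refine ⟨i, Finset.mem_cons.mpr (Or.inr hi), fun j hj => ?_⟩
      rcases Finset.mem_cons.mp hj with rfl | hj
      · exact h
      · exact hdiv j hj

/-- In a Dedekind domain `R` with a nonzero prime `P`: a nonzero family `x n` has a member `x n₀`
which divides all the `s * x n`, for some `s ∉ P`. -/
theorem scale_exists_dvd {R : Type*} [CommRing R] [IsDedekindDomain R]
    (P : Ideal R) [P.IsPrime] (hP : P ≠ ⊥) (x : ℕ → R) (hx : ∃ n, x n ≠ 0) :
    ∃ n₀ : ℕ, ∃ s : R, s ∉ P ∧ x n₀ ≠ 0 ∧ ∀ n, x n₀ ∣ s * x n := by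
  classical
  have hdvr : IsDiscreteValuationRing (Localization.AtPrime P) :=
    IsLocalization.AtPrime.isDiscreteValuationRing_of_dedekind_domain R hP _
  have hinj : Function.Injective (algebraMap R (Localization.AtPrime P)) :=
    IsLocalization.injective _ P.primeCompl_le_nonZeroDivisors
  obtain ⟨F, hFsub, hFspan⟩ := (Submodule.fg_span_iff_fg_span_finset_subset (Set.range x)).mp
    (IsNoetherian.noetherian (Ideal.span (Set.range x)))
  have hmemspan : ∀ n, x n ∈ Submodule.span R (F : Set R) := fun n => by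
    rw [← hFspan]
    exact Submodule.subset_span ⟨n, rfl⟩
  have hFne : F.Nonempty := by
    rw [Finset.nonempty_iff_ne_empty]
    rintro rfl
    obtain ⟨n, hn⟩ := hx
    have := hmemspan n
    simp at this
    exact hn this
  obtain ⟨g₀, hg₀F, hg₀⟩ :=
    scale_exists_min_dvd F hFne (fun g => algebraMap R (Localization.AtPrime P) g)
  obtain ⟨n₀, rfl⟩ := hFsub hg₀F
  have h1 : ∀ g ∈ F, ∃ s, s ∉ P ∧ x n₀ ∣ s * g := by
    intro g hg
    obtain ⟨y, hy⟩ := hg₀ g hg
    obtain ⟨⟨r, t⟩, hrt⟩ := IsLocalization.surj P.primeCompl y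
    refine ⟨t, t.2, ⟨r, ?_⟩⟩
    apply hinj
    simp only at hrt hy
    rw [map_mul, map_mul, hy, ← hrt]
    ring
  have h2 : ∀ F' : Finset R, (∀ g ∈ F', ∃ s, s ∉ P ∧ x n₀ ∣ s * g) →
      ∃ s, s ∉ P ∧ ∀ g ∈ F', x n₀ ∣ s * g := by
    intro F'
    induction F' using Finset.induction_on with
    | empty =>
      intro _
      exact ⟨1, fun h => (Ideal.IsPrime.ne_top inferInstance) ((Ideal.eq_top_iff_one P).mpr h),
        fun g hg => absurd hg (Finset.notMem_empty g)⟩
    | insert a F'' ha ih =>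
      intro h
      obtain ⟨s, hs, hsF⟩ := ih (fun g hg => h g (Finset.mem_insert_of_mem hg))
      obtain ⟨sa, hsa, hsaa⟩ := h a (Finset.mem_insert_self a F'')
      refine ⟨sa * s, fun hmem => ?_, fun g hg => ?_⟩
      · rcases Ideal.IsPrime.mem_or_mem inferInstance hmem with h' | h'
        · exact hsa h'
        · exact hs h'
      · rcases Finset.mem_insert.mp hg with rfl | hg
        · rw [mul_right_comm]
          exact Dvd.dvd.mul_right hsaa s
        · rw [mul_assoc]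
          exact Dvd.dvd.mul_left (hsF g hg) sa
  obtain ⟨s, hs, hsF⟩ := h2 F h1
  have h3 : ∀ g ∈ Submodule.span R (F : Set R), x n₀ ∣ s * g := by
    intro g hg
    induction hg using Submodule.span_induction with
    | mem g hg => exact hsF g hg
    | zero => simp
    | add a b _ _ ha hb => rw [mul_add]; exact dvd_add ha hb
    | smul r a _ ha => rw [smul_eq_mul, mul_left_comm]; exact Dvd.dvd.mul_left ha r
  refine ⟨n₀, s, hs, ?_, fun n => h3 _ (hmemspan n)⟩
  intro h0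
  obtain ⟨n, hn⟩ := hx
  have h4 := h3 (x n) (hmemspan n)
  rw [h0, zero_dvd_iff] at h4
  rcases mul_eq_zero.mp h4 with h5 | h5
  · exact hs (h5 ▸ P.zero_mem)
  · exact hn h5

/-- **(P-SCALE)**. -/
theorem scaleStatement : ScaleStatement := by
  intro c hc hK ℓ hℓ k _ _ φ
  obtain ⟨K, hKfin, hcK⟩ := hK
  have hnf : NumberField K := { to_charZero := inferInstance, to_finiteDimensional := hKfin }
  -- the integers of `K` as algebraic integers
  have hint : ∀ y : 𝓞 K, IsIntegral ℤ (((y : K) : ℂ)) := fun y =>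
    (isIntegral_algebraMap_iff (algebraMap K ℂ).injective).mpr y.2
  let ι : 𝓞 K →+* integralClosure ℤ ℂ :=
    { toFun := fun y => ⟨((y : K) : ℂ), hint y⟩
      map_one' := by apply Subtype.ext; simp
      map_mul' := fun a b => by apply Subtype.ext; simp
      map_zero' := by apply Subtype.ext; simp
      map_add' := fun a b => by apply Subtype.ext; simp }
  have hι : ∀ y : 𝓞 K, ((ι y : integralClosure ℤ ℂ) : ℂ) = ((y : K) : ℂ) := fun _ => rfl
  -- the family in `𝓞 K`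
  have hxint : ∀ n, IsIntegral ℤ (⟨(c n : ℂ), hcK n⟩ : K) := fun n =>
    (isIntegral_algebraMap_iff (algebraMap K ℂ).injective).mp (c n).2
  let x : ℕ → 𝓞 K := fun n => ⟨⟨(c n : ℂ), hcK n⟩, hxint n⟩
  have hxc : ∀ n, (((x n : 𝓞 K) : K) : ℂ) = (c n : ℂ) := fun _ => rfl
  have hx : ∃ n, x n ≠ 0 := by
    obtain ⟨n, hn⟩ := hc
    refine ⟨n, fun h => hn ?_⟩
    apply Subtype.ext
    have h1 := congrArg (fun y : 𝓞 K => ((y : K) : ℂ)) h
    simpa [hxc] using h1
  -- the prime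
  let ψ : 𝓞 K →+* k := φ.comp ι
  have hPprime : (RingHom.ker ψ).IsPrime := RingHom.ker_isPrime ψ
  have hP : RingHom.ker ψ ≠ ⊥ := by
    intro h
    have h1 : (ℓ : 𝓞 K) ∈ RingHom.ker ψ := by
      rw [RingHom.mem_ker, map_natCast]
      exact CharP.cast_eq_zero k ℓ
    rw [h, Ideal.mem_bot] at h1
    exact hℓ.ne_zero (by exact_mod_cast h1)
  obtain ⟨n₀, s, hs, hn₀, hdiv⟩ := scale_exists_dvd (RingHom.ker ψ) hP x hx
  choose w hw using hdiv
  have hs0 : s ≠ 0 := fun h => hs (h ▸ (RingHom.ker ψ).zero_mem)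
  have hsC : (((s : 𝓞 K) : K) : ℂ) ≠ 0 := by
    intro h
    apply hs0
    have : ((s : 𝓞 K) : K) = 0 := by exact_mod_cast h
    exact_mod_cast this
  have hxC : (c n₀ : ℂ) ≠ 0 := by
    intro h
    apply hn₀
    have h1 : (((x n₀ : 𝓞 K) : K) : ℂ) = 0 := by rw [hxc]; exact h
    have : ((x n₀ : 𝓞 K) : K) = 0 := by exact_mod_cast h1
    exact_mod_cast this
  refine ⟨(((s : 𝓞 K) : K) : ℂ) / (c n₀ : ℂ), fun n => ι (w n), div_ne_zero hsC hxC,
    fun n => ?_, n₀, ?_⟩
  · rw [hι]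
    have h1 := congrArg (fun y : 𝓞 K => ((y : K) : ℂ)) (hw n)
    simp only [map_mul] at h1
    have h2 : (((s : 𝓞 K) : K) : ℂ) * (c n : ℂ) = (c n₀ : ℂ) * (((w n : 𝓞 K) : K) : ℂ) := by
      rw [← hxc n, ← hxc n₀]
      exact_mod_cast h1
    field_simp
    rw [h2]
    ring
  · have h1 : w n₀ = s := by
      have := hw n₀
      rw [mul_comm] at this
      exact (mul_left_cancel₀ hn₀ this).symm
    show φ (ι (w n₀)) ≠ 0
    rw [h1]
    exact hs

end Fermat.Agent.S48W
end MergeWrap_S48_W_P_Scale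

section MergeWrap_S48_W_P_EisMod -- from S48/W/P/EisMod.lean

set_option autoImplicit false
set_option linter.style.haveILetI false
set_option linter.unusedVariables false

noncomputable section

namespace Fermat.Agent.S48W

open CongruenceSubgroup UpperHalfPlane
open scoped MatrixGroups ModularForm

theorem em_one_mem_strictPeriods (N : ℕ) :
    (1 : ℝ) ∈ ((Gamma1 N : Subgroup (GL (Fin 2) ℝ))).strictPeriods := by
  rw [strictPeriods_Gamma1]
  exact AddSubgroup.mem_zmultiples 1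

theorem em_val_cast {ℓ : ℕ} [NeZero ℓ] {k : Type} [Field k] [CharP k ℓ] (x : ZMod ℓ) :
    ((x.val : ℕ) : k) = ZMod.castHom (dvd_refl ℓ) k x := by
  rw [ZMod.castHom_apply, ZMod.natCast_val]

/-- A Teichmüller character is odd: `ω (-1) = -1` (`ℓ ≠ 2`). -/
theorem em_teich_neg_one {ℓ : ℕ} (hℓ : ℓ.Prime) (hℓ2 : ℓ ≠ 2) {k : Type} [Field k] [CharP k ℓ]
    (φ : integralClosure ℤ ℂ →+* k) (ω : (ZMod ℓ)ˣ →* (integralClosure ℤ ℂ)ˣ)
    (hω : ∀ d : (ZMod ℓ)ˣ, φ (ω d : integralClosure ℤ ℂ) = (((d : ZMod ℓ).val : ℕ) : k)) :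
    ω (-1) = -1 := by
  haveI : NeZero ℓ := ⟨hℓ.ne_zero⟩
  have h1 : (ω (-1)) * (ω (-1)) = 1 := by
    rw [← map_mul, neg_one_mul, neg_neg, map_one]
  have h2 : ((ω (-1) : (integralClosure ℤ ℂ)ˣ) : integralClosure ℤ ℂ) *
      ((ω (-1) : (integralClosure ℤ ℂ)ˣ) : integralClosure ℤ ℂ) = 1 := by
    rw [← Units.val_mul, h1, Units.val_one]
  rcases mul_self_eq_one_iff.1 h2 with h | h
  · exfalso
    have h3 := hω (-1)
    rw [h, map_one, em_val_cast, Units.val_neg, Units.val_one, map_neg, map_one] at h3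
    have h4 : ((2 : ℕ) : k) = 0 := by
      have : (2 : k) = 1 + 1 := by norm_num
      rw [Nat.cast_ofNat, this]
      nth_rewrite 1 [h3]
      ring
    have h5 := (CharP.cast_eq_zero_iff k ℓ 2).1 h4
    exact hℓ2 ((Nat.prime_dvd_prime_iff_eq hℓ Nat.prime_two).1 h5)
  · apply Units.ext
    rw [h, Units.val_neg, Units.val_one]

/-- **(P2')** the Eisenstein series modulo `φ`, from the weight-one Eisenstein series. -/
theorem eisModStatement_of (h1 : Fermat.Agent.S48.Eis1.Eis1Statement) : EisModStatement := by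
  intro ℓ hℓ hℓ2 k _ _ φ ω hω
  classical
  haveI : NeZero ℓ := ⟨hℓ.ne_zero⟩
  -- the characters
  set ψZ : MulChar (ZMod ℓ) (integralClosure ℤ ℂ) := MulChar.ofUnitHom ω⁻¹ with hψZ
  set ψ : DirichletCharacter ℂ ℓ := ψZ.ringHomComp (algebraMap (integralClosure ℤ ℂ) ℂ) with hψ
  have hψapp : ∀ x : ZMod ℓ, ψ x = ((ψZ x : integralClosure ℤ ℂ) : ℂ) := fun x => rfl
  have hψZu : ∀ d : (ZMod ℓ)ˣ, ψZ (d : ZMod ℓ) =
      (((ω d)⁻¹ : (integralClosure ℤ ℂ)ˣ) : integralClosure ℤ ℂ) := by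
    intro d
    rw [hψZ, MulChar.ofUnitHom_coe]
    rfl
  have hodd : ψ.Odd := by
    show ψ (-1) = -1
    have hm : ((-1 : (ZMod ℓ)ˣ) : ZMod ℓ) = -1 := by
      rw [Units.val_neg, Units.val_one]
    rw [← hm, hψapp, hψZu, em_teich_neg_one hℓ hℓ2 φ ω hω, inv_neg, inv_one, Units.val_neg,
      Units.val_one]
    push_cast
    rfl
  obtain ⟨E₀, hneb, hc0, hcn⟩ := h1 ℓ ψ hodd
  set E : ModularForm (Gamma1 ℓ) 1 := (((2 * ℓ : ℕ) : ℂ)) • E₀ with hE
  have hEcoe : (E : ℍ → ℂ) = (((2 * ℓ : ℕ) : ℂ)) • (E₀ : ℍ → ℂ) := rfl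
  set b : ℕ → integralClosure ℤ ℂ := fun n =>
    if n = 0 then -∑ a ∈ Finset.range ℓ, ((a : ℕ) : integralClosure ℤ ℂ) * ψZ (a : ZMod ℓ)
    else ((2 * ℓ : ℕ) : integralClosure ℤ ℂ) * ∑ d ∈ n.divisors, ψZ (d : ZMod ℓ) with hb
  have hℓ0 : (ℓ : ℂ) ≠ 0 := Nat.cast_ne_zero.2 hℓ.ne_zero
  refine ⟨E, b, ?_, ?_, ?_, ?_⟩
  · -- the `q`-coefficients
    intro n
    unfold ModularFormClass.qCoeff
    rw [hEcoe, ModularForm.qExpansion_smul (zero_lt_one' ℝ) (em_one_mem_strictPeriods ℓ) _ E₀,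
      PowerSeries.coeff_smul, smul_eq_mul]
    by_cases hn : n = 0
    · subst hn
      rw [hc0]
      show ((-∑ a ∈ Finset.range ℓ, ((a : ℕ) : integralClosure ℤ ℂ) * ψZ (a : ZMod ℓ) :
        integralClosure ℤ ℂ) : ℂ) = _
      push_cast
      have h2 : ∀ a : ℕ, ((ψZ (a : ZMod ℓ) : integralClosure ℤ ℂ) : ℂ) = ψ (a : ZMod ℓ) :=
        fun a => rfl
      simp only [h2]
      field_simp
    · rw [hcn n (Nat.pos_of_ne_zero hn)]
      show ((if n = 0 then _ else ((2 * ℓ : ℕ) : integralClosure ℤ ℂ) *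
        ∑ d ∈ n.divisors, ψZ (d : ZMod ℓ) : integralClosure ℤ ℂ) : ℂ) = _
      rw [if_neg hn]
      push_cast
      rfl
  · -- `φ (b 0) = 1`
    show φ (if (0 : ℕ) = 0 then
      -∑ a ∈ Finset.range ℓ, ((a : ℕ) : integralClosure ℤ ℂ) * ψZ (a : ZMod ℓ) else _) = 1
    rw [if_pos rfl, map_neg, map_sum]
    have hterm : ∀ a ∈ Finset.range ℓ,
        φ (((a : ℕ) : integralClosure ℤ ℂ) * ψZ (a : ZMod ℓ)) =
          (1 : k) - (if a = 0 then 1 else 0) := by
      intro a ha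
      rw [map_mul, map_natCast]
      by_cases ha0 : a = 0
      · subst ha0
        rw [Nat.cast_zero, zero_mul, if_pos rfl, sub_self]
      · rw [if_neg ha0, sub_zero]
        have halt : a < ℓ := Finset.mem_range.1 ha
        have hcop : Nat.Coprime a ℓ := by
          rw [Nat.coprime_comm, Nat.Prime.coprime_iff_not_dvd hℓ]
          intro hdvd
          exact absurd (Nat.le_of_dvd (Nat.pos_of_ne_zero ha0) hdvd) (not_le.2 halt)
        have hak : ((a : ℕ) : k) ≠ 0 := by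
          intro h0
          have := (CharP.cast_eq_zero_iff k ℓ a).1 h0
          exact absurd (Nat.le_of_dvd (Nat.pos_of_ne_zero ha0) this) (not_le.2 halt)
        have hu : ((a : ℕ) : ZMod ℓ) = ((ZMod.unitOfCoprime a hcop : (ZMod ℓ)ˣ) : ZMod ℓ) :=
          (ZMod.coe_unitOfCoprime a hcop).symm
        rw [hu, hψZu, map_units_inv, hω, ZMod.coe_unitOfCoprime, ZMod.val_natCast,
          Nat.mod_eq_of_lt halt, mul_inv_cancel₀ hak]
    rw [Finset.sum_congr rfl hterm, Finset.sum_sub_distrib, Finset.sum_const, Finset.card_range,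
      Finset.sum_ite_eq' (Finset.range ℓ) 0 (fun _ => (1 : k)),
      if_pos (Finset.mem_range.2 hℓ.pos), nsmul_eq_mul, mul_one, CharP.cast_eq_zero k ℓ]
    ring
  · -- `φ (b n) = 0`
    intro n hn
    show φ (if n = 0 then _ else ((2 * ℓ : ℕ) : integralClosure ℤ ℂ) *
      ∑ d ∈ n.divisors, ψZ (d : ZMod ℓ)) = 0
    rw [if_neg hn.ne', map_mul, map_natCast, Nat.cast_mul, CharP.cast_eq_zero k ℓ, mul_zero,
      zero_mul]
  · -- the nebentypus
    intro γ hγ d hd z
    rw [hEcoe, ModularForm.SL_smul_slash, Pi.smul_apply, Pi.smul_apply, smul_eq_mul, smul_eq_mul,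
      hneb γ hγ z, ← hd, hψapp, hψZu]
    ring

end Fermat.Agent.S48W
end
end MergeWrap_S48_W_P_EisMod

section MergeWrap_S48_W_P_Eigen -- from S48/W/P/Eigen.lean

set_option autoImplicit false
set_option linter.style.haveILetI false
set_option linter.unusedVariables false

noncomputable section

namespace Fermat.Agent.S48W

open CongruenceSubgroup UpperHalfPlane
open scoped MatrixGroups ModularForm

theorem pe_one_mem_strictPeriods (N : ℕ) :
    (1 : ℝ) ∈ ((Gamma1 N : Subgroup (GL (Fin 2) ℝ))).strictPeriods := by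
  rw [strictPeriods_Gamma1]
  exact AddSubgroup.mem_zmultiples 1

theorem pe_qCoeff_smul {N : ℕ} (α : ℂ) (f : CuspForm (Gamma1 N) 1) (n : ℕ) :
    ModularFormClass.qCoeff (α • f : CuspForm (Gamma1 N) 1) n
      = α * ModularFormClass.qCoeff f n := by
  unfold ModularFormClass.qCoeff
  have h := ModularForm.qExpansion_smul (zero_lt_one' ℝ) (pe_one_mem_strictPeriods N) α f
  have hcoe : ((α • f : CuspForm (Gamma1 N) 1) : ℍ → ℂ) = α • (f : ℍ → ℂ) := rfl
  rw [hcoe, h, PowerSeries.coeff_smul, smul_eq_mul]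

theorem pe_Gamma0_of_dvd {M N : ℕ} (h : N ∣ M) {γ : SL(2, ℤ)} (hγ : γ ∈ Gamma0 M) :
    γ ∈ Gamma0 N := by
  rw [Gamma0_mem] at hγ ⊢
  rw [ZMod.intCast_zmod_eq_zero_iff_dvd] at hγ ⊢
  exact (Int.natCast_dvd_natCast.2 h).trans hγ

theorem pe_unitsMap_eq {M N : ℕ} (h : N ∣ M) {γ : SL(2, ℤ)} (d : (ZMod M)ˣ)
    (hd : (d : ZMod M) = ((γ 1 1 : ℤ) : ZMod M)) :
    ((ZMod.unitsMap h d : (ZMod N)ˣ) : ZMod N) = ((γ 1 1 : ℤ) : ZMod N) := by
  rw [ZMod.unitsMap_val, hd, ZMod.cast_intCast h]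

theorem pe_unitsMap_unitOfCoprime {M N : ℕ} (h : N ∣ M) (p : ℕ) (hpM : Nat.Coprime p M)
    (hpN : Nat.Coprime p N) :
    ZMod.unitsMap h (ZMod.unitOfCoprime p hpM) = ZMod.unitOfCoprime p hpN := by
  apply Units.ext
  rw [ZMod.unitsMap_val, ZMod.coe_unitOfCoprime, ZMod.coe_unitOfCoprime, ZMod.cast_natCast h]

/-- **(P4')**, in the form of helper93's `ProductEigenStatement`. -/
theorem productEigenStatement_of (hT : TeichStatement) (hS : ScaleStatement)
    (hE : EisModStatement) (hP : ProductFormStatement) : ProductEigenStatement := by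
  intro N _ ε f c a hc hne hK hneb hHecke ℓ hℓ hℓN k _ _ φ _
  classical
  haveI : NeZero ℓ := ⟨hℓ.ne_zero⟩
  have hℓ2 : ℓ ≠ 2 := by
    rintro rfl
    exact hℓN (dvd_mul_right 2 N)
  obtain ⟨ω, hω⟩ := hT ℓ hℓ k φ
  obtain ⟨E, b, hb, hb0, hbn, hEneb⟩ := hE ℓ hℓ hℓ2 k φ ω hω
  obtain ⟨α, c', hα, hc', n₀, hn₀⟩ := hS c hne hK ℓ hℓ k φ
  obtain ⟨g, hg, hgq⟩ := hP N ℓ (α • f) E
  have hcf' : ∀ n, (c' n : ℂ) = ModularFormClass.qCoeff (α • f : CuspForm (Gamma1 N) 1) n :=
    fun n => by rw [pe_qCoeff_smul, hc', hc]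
  -- the coefficients of `g`
  set cg : ℕ → integralClosure ℤ ℂ := fun n => ∑ i ∈ Finset.range (n + 1), c' i * b (n - i)
    with hcg
  have hcgq : ∀ n, (cg n : ℂ) = ModularFormClass.qCoeff g n := by
    intro n
    have h1 : ((cg n : integralClosure ℤ ℂ) : ℂ) =
        ∑ i ∈ Finset.range (n + 1), (c' i : ℂ) * (b (n - i) : ℂ) := by
      show ((∑ i ∈ Finset.range (n + 1), c' i * b (n - i) : integralClosure ℤ ℂ) : ℂ) = _
      push_cast
      rfl
    rw [h1, hgq]
    refine Finset.sum_congr rfl fun i _ => ?_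
    rw [hcf', hb]
  have hφcg : ∀ n, φ (cg n) = φ (c' n) := by
    intro n
    show φ (∑ i ∈ Finset.range (n + 1), c' i * b (n - i)) = _
    rw [map_sum, Finset.sum_eq_single n]
    · rw [map_mul, Nat.sub_self, hb0, mul_one]
    · intro i hi hin
      have hlt : 0 < n - i := by
        have := Finset.mem_range.1 hi
        omega
      rw [map_mul, hbn _ hlt, mul_zero]
    · intro h
      exact absurd (Finset.mem_range.2 (Nat.lt_succ_self n)) h
  -- the Hecke relation for `c'`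
  have hHecke' : ∀ (p : ℕ) (hp : p.Prime) (hpN : Nat.Coprime p N) (n : ℕ),
      c' (p * n) + (ε (ZMod.unitOfCoprime p hpN) : integralClosure ℤ ℂ) *
        (if p ∣ n then c' (n / p) else 0) = a p * c' n := by
    intro p hp hpN n
    apply Subtype.ext
    have h : α * ((c (p * n) + (ε (ZMod.unitOfCoprime p hpN) : integralClosure ℤ ℂ) *
        (if p ∣ n then c (n / p) else 0) : integralClosure ℤ ℂ) : ℂ) =
        α * ((a p * c n : integralClosure ℤ ℂ) : ℂ) := by rw [hHecke p hp hpN n]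
    by_cases hpn : p ∣ n
    · rw [if_pos hpn] at h ⊢
      push_cast at h ⊢
      rw [hc', hc', hc']
      linear_combination h
    · rw [if_neg hpn] at h ⊢
      push_cast at h ⊢
      rw [hc', hc']
      linear_combination h
  -- the character
  have hdN : N ∣ N * ℓ := dvd_mul_right N ℓ
  have hdℓ : ℓ ∣ N * ℓ := dvd_mul_left ℓ N
  set χ : (ZMod (N * ℓ))ˣ →* (integralClosure ℤ ℂ)ˣ :=
    (ε.comp (ZMod.unitsMap hdN)) * (ω.comp (ZMod.unitsMap hdℓ))⁻¹ with hχ
  have hχapp : ∀ d, χ d = ε (ZMod.unitsMap hdN d) * (ω (ZMod.unitsMap hdℓ d))⁻¹ := fun d => rfl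
  have hχp : ∀ (p : ℕ) (hpN : Nat.Coprime p N) (hpM : Nat.Coprime p (N * ℓ)),
      ((p : ℕ) : k) * φ (χ (ZMod.unitOfCoprime p hpM) : integralClosure ℤ ℂ)
        = φ (ε (ZMod.unitOfCoprime p hpN) : integralClosure ℤ ℂ) := by
    intro p hpN hpM
    have hpℓ : Nat.Coprime p ℓ := Nat.Coprime.coprime_mul_left_right hpM
    have h3 : φ (ω (ZMod.unitOfCoprime p hpℓ) : integralClosure ℤ ℂ) = (p : k) := by
      rw [hω, ZMod.coe_unitOfCoprime, ZMod.val_natCast]
      have h4 : ((p % ℓ : ℕ) : k) = ((p : ℕ) : k) := by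
        conv_rhs => rw [← Nat.mod_add_div p ℓ]
        rw [Nat.cast_add, Nat.cast_mul, CharP.cast_eq_zero k ℓ, zero_mul, add_zero]
      exact h4
    have hp0 : ((p : ℕ) : k) ≠ 0 := by
      intro h0
      have h5 := (CharP.cast_eq_zero_iff k ℓ p).1 h0
      have h6 : ℓ ∣ Nat.gcd p ℓ := Nat.dvd_gcd h5 (dvd_refl ℓ)
      rw [hpℓ] at h6
      exact hℓ.one_lt.ne' (Nat.dvd_one.1 h6)
    rw [hχapp, pe_unitsMap_unitOfCoprime hdN p hpM hpN, pe_unitsMap_unitOfCoprime hdℓ p hpM hpℓ,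
      Units.val_mul, map_mul, map_units_inv, h3]
    field_simp
  refine ⟨{ g := g, χ := χ, neb := ?_, c := cg, hc := hcgq, ne := ⟨n₀, by rw [hφcg]; exact hn₀⟩,
            t := fun p => φ (a p), eig := ?_ }, fun p _ => rfl, hχp⟩
  · -- the nebentypus
    intro γ hγ d hd z
    have hgfun : (g : ℍ → ℂ) = ((α • f : CuspForm (Gamma1 N) 1) : ℍ → ℂ) * (E : ℍ → ℂ) :=
      funext hg
    have h1 := hneb γ (pe_Gamma0_of_dvd hdN hγ) (ZMod.unitsMap hdN d) (pe_unitsMap_eq hdN d hd) z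
    have h2 := hEneb γ (pe_Gamma0_of_dvd hdℓ hγ) (ZMod.unitsMap hdℓ d) (pe_unitsMap_eq hdℓ d hd) z
    have h3 : ((g : ℍ → ℂ) ∣[(2 : ℤ)] γ) z =
        ((((α • f : CuspForm (Gamma1 N) 1) : ℍ → ℂ) ∣[(1 : ℤ)] γ) z) *
          (((E : ℍ → ℂ) ∣[(1 : ℤ)] γ) z) := by
      rw [hgfun]
      have h4 := ModularForm.mul_slash_SL2 1 1 γ
        ((α • f : CuspForm (Gamma1 N) 1) : ℍ → ℂ) (E : ℍ → ℂ)
      have h5 : ((1 : ℤ) + 1) = 2 := by norm_num
      rw [h5] at h4
      rw [h4, Pi.mul_apply]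
    have h6 : ((((α • f : CuspForm (Gamma1 N) 1) : ℍ → ℂ) ∣[(1 : ℤ)] γ) z) =
        α * (((f : ℍ → ℂ) ∣[(1 : ℤ)] γ) z) := by
      have hcoe : ((α • f : CuspForm (Gamma1 N) 1) : ℍ → ℂ) = α • (f : ℍ → ℂ) := rfl
      rw [hcoe, ModularForm.SL_smul_slash, Pi.smul_apply, smul_eq_mul]
    rw [h3, h6, h1, h2, hg z, hχapp]
    have hcoe : ((α • f : CuspForm (Gamma1 N) 1) : ℍ → ℂ) z = α * f z := rfl
    rw [hcoe, Units.val_mul]
    push_cast
    ring
  · -- the eigen-equations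
    intro p hpM n
    have hpN : Nat.Coprime (p : ℕ) N := Nat.Coprime.coprime_mul_right_right hpM
    have h1 := congrArg φ (hHecke' p p.2 hpN n)
    rw [map_add, map_mul, map_mul] at h1
    show φ (cg ((p : ℕ) * n)) + ((p : ℕ) : k) *
        φ (χ (ZMod.unitOfCoprime (p : ℕ) hpM) : integralClosure ℤ ℂ) *
        (if (p : ℕ) ∣ n then φ (cg (n / (p : ℕ))) else 0) = φ (a p) * φ (cg n)
    rw [hφcg ((p : ℕ) * n), hφcg n, hχp p hpN hpM, ← h1]
    congr 1
    by_cases hpn : (p : ℕ) ∣ n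
    · rw [if_pos hpn, if_pos hpn, hφcg]
    · rw [if_neg hpn, if_neg hpn, map_zero]

/-- **(P4')**, in the form `ProductEigen` of `P/Defs.lean`. -/
theorem productEigen_of (hT : TeichStatement) (hS : ScaleStatement)
    (hE : EisModStatement) (hP : ProductFormStatement) : ProductEigen := by
  intro N _ ε f c a hc hne hK hneb hHecke ℓ hℓ hℓN k _ _ φ
  have hNe : NeZero (N * ℓ) := ⟨mul_ne_zero (NeZero.ne N) hℓ.ne_zero⟩
  obtain ⟨e, he1, he2⟩ := productEigenStatement_of hT hS hE hP N ε f c a hc hne hK hneb hHecke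
    ℓ hℓ hℓN k φ
  exact ⟨hNe, e, he1, fun p hpM hpN => he2 p hpN hpM⟩

end Fermat.Agent.S48W
end
end MergeWrap_S48_W_P_Eigen

section MergeWrap_S48_W_P_Main -- from S48/W/P/Main.lean

set_option autoImplicit false

noncomputable section

namespace Fermat.Agent.S48W

/-- **Block P** from the weight-one Eisenstein series. -/
theorem productEigenStatement_of_eis1 (h : Fermat.Agent.S48.Eis1.Eis1Statement) :
    ProductEigenStatement :=
  productEigenStatement_of teichStatement scaleStatement (eisModStatement_of h)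
    productFormStatement

/-- **Block P** (form `ProductEigen`) from the weight-one Eisenstein series. -/
theorem productEigen_of_eis1 (h : Fermat.Agent.S48.Eis1.Eis1Statement) : ProductEigen :=
  productEigen_of teichStatement scaleStatement (eisModStatement_of h) productFormStatement

end Fermat.Agent.S48W
end
end MergeWrap_S48_W_P_Main
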